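import Mathlib
import Fermat.Prelude.Def_FLTPrelim_Modularity
import Fermat.Prelude.Def_CuspForm_HeckeAlgebra
import Fermat.Prelude.Def_CuspForm_IntegralStructure
import Fermat.Prelude.Def_CuspForm_IntegralLattice
import Fermat.Prelude.Thm_CongruenceSubgroup_one_mem_strictPeriods_Gamma0
import Fermat.Prelude.Thm_ModularForm_sturm_bound_Gamma0
import Fermat.Prelude.Thm_ModularFormClass_qCoeff_heckeT
import Fermat.Prelude.Thm_ModularFormClass_qCoeff_heckeU
import Fermat.Prelude.Thm_CuspForm_intLattice_fg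
import Fermat.Prelude.Thm_CuspForm_mem_intLattice_of_mem_heckeAlgebra

/-!
# S49 helper: q-expansion API for `CuspForm (Gamma0 N) k`
-/

set_option autoImplicit false

noncomputable section

namespace Fermat.Agent.S49

open ModularFormClass CongruenceSubgroup UpperHalfPlane

variable {N : ℕ} {k : ℤ}

theorem one_mem_strictPeriods (N : ℕ) :
    (1 : ℝ) ∈ (Subgroup.map (Matrix.SpecialLinearGroup.mapGL ℝ) (Gamma0 N)).strictPeriods :=
  CongruenceSubgroup.one_mem_strictPeriods_Gamma0 N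

theorem qCoeff_add (f g : CuspForm (Gamma0 N) k) (n : ℕ) :
    qCoeff ⇑(f + g) n = qCoeff ⇑f n + qCoeff ⇑g n := by
  simp only [qCoeff, FunLike.coe_add]
  rw [ModularForm.qExpansion_add one_pos (one_mem_strictPeriods N) f g, map_add]

theorem qCoeff_smul (c : ℂ) (f : CuspForm (Gamma0 N) k) (n : ℕ) :
    qCoeff ⇑(c • f) n = c * qCoeff ⇑f n := by
  have h1 : ⇑(c • f) = c • ⇑f := by
    ext z
    simp
  simp only [qCoeff, h1]
  rw [ModularForm.qExpansion_smul one_pos (one_mem_strictPeriods N) c f]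
  simp

/-- The `n`-th q-coefficient as a `ℂ`-linear functional. -/
def qCoeffLin (N : ℕ) (k : ℤ) (n : ℕ) : CuspForm (Gamma0 N) k →ₗ[ℂ] ℂ where
  toFun f := qCoeff ⇑f n
  map_add' f g := qCoeff_add f g n
  map_smul' c f := by
    simp only [RingHom.id_apply, smul_eq_mul]
    exact qCoeff_smul c f n

@[simp] theorem qCoeffLin_apply (f : CuspForm (Gamma0 N) k) (n : ℕ) :
    qCoeffLin N k n f = qCoeff ⇑f n := rfl

theorem qCoeff_zero_cusp (f : CuspForm (Gamma0 N) k) : qCoeff ⇑f 0 = 0 :=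
  CuspFormClass.qExpansion_coeff_zero f one_pos (one_mem_strictPeriods N)

theorem eq_zero_of_qCoeff_eq_zero [NeZero N] (f : CuspForm (Gamma0 N) k)
    (h : ∀ n, qCoeff ⇑f n = 0) : f = 0 := by
  have hmf : (ModularFormClass.modularForm f : ModularForm (Gamma0 N) k) = 0 := by
    refine ModularForm.sturm_bound_Gamma0 N _ fun n _ ↦ ?_
    have := h n
    simpa [qCoeff] using this
  have hcoe : (⇑f : ℍ → ℂ) = 0 := by
    have := congrArg (fun F : ModularForm (Gamma0 N) k ↦ (⇑F : ℍ → ℂ)) hmf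
    simpa using this
  exact DFunLike.coe_injective (hcoe.trans FunLike.coe_zero.symm)

theorem ext_of_qCoeff_eq [NeZero N] {f g : CuspForm (Gamma0 N) k}
    (h : ∀ n, qCoeff ⇑f n = qCoeff ⇑g n) : f = g := by
  rw [← sub_eq_zero]
  apply eq_zero_of_qCoeff_eq_zero
  intro n
  have := (qCoeffLin N k n).map_sub f g
  simp only [qCoeffLin_apply] at this
  rw [this, h n, sub_self]

theorem qCoeff_heckeTLin {p : ℕ} (hp : p.Prime) (hpN : ¬ p ∣ N) (f : CuspForm (Gamma0 N) k)
    (n : ℕ) :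
    qCoeff ⇑(CuspForm.heckeTLin k hp hpN f) n =
      qCoeff ⇑f (n * p) + if p ∣ n then (p : ℂ) ^ (k - 1) * qCoeff ⇑f (n / p) else 0 := by
  rw [CuspForm.coe_heckeTLin_apply,
    ModularFormClass.qCoeff_heckeT f (one_mem_strictPeriods N) hp.ne_zero n]
  rfl

theorem qCoeff_heckeULin [NeZero N] {p : ℕ} (hp : p.Prime) (hpN : p ∣ N)
    (f : CuspForm (Gamma0 N) k) (n : ℕ) :
    qCoeff ⇑(CuspForm.heckeULin k hpN f) n = qCoeff ⇑f (n * p) := by
  rw [CuspForm.coe_heckeULin_apply,
    ModularFormClass.qCoeff_heckeU f (one_mem_strictPeriods N) hp.ne_zero n]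
  rfl

/-- Truncated q-expansion up to the Sturm bound, as a `ℂ`-linear map. -/
def truncLin (N : ℕ) (k : ℤ) :
    CuspForm (Gamma0 N) k →ₗ[ℂ] (Fin ((k * (Gamma0 N).index).toNat / 12 + 1) → ℂ) :=
  LinearMap.pi fun i => qCoeffLin N k i

theorem truncLin_injective (N : ℕ) [NeZero N] (k : ℤ) : Function.Injective (truncLin N k) := by
  refine (injective_iff_map_eq_zero _).mpr fun f hf ↦ ?_
  have hmf : (ModularFormClass.modularForm f : ModularForm (Gamma0 N) k) = 0 := by
    refine ModularForm.sturm_bound_Gamma0 N _ fun n hn ↦ ?_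
    have := congrFun hf ⟨n, Nat.lt_succ_of_le hn⟩
    simpa [truncLin, qCoeff] using this
  have hcoe : (⇑f : ℍ → ℂ) = 0 := by
    have := congrArg (fun F : ModularForm (Gamma0 N) k ↦ (⇑F : ℍ → ℂ)) hmf
    simpa using this
  exact DFunLike.coe_injective (hcoe.trans FunLike.coe_zero.symm)

theorem finiteDimensional_cuspForm (N : ℕ) [NeZero N] (k : ℤ) :
    FiniteDimensional ℂ (CuspForm (Gamma0 N) k) :=
  FiniteDimensional.of_injective (truncLin N k) (truncLin_injective N k)

/-- membership in the integral lattice, unfolded -/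
theorem mem_intLattice_iff (f : CuspForm (Gamma0 N) k) :
    f ∈ CuspForm.intLattice N k ↔ ∀ n : ℕ, ∃ m : ℤ, qCoeff ⇑f n = (m : ℂ) := by
  constructor
  · intro hf
    refine Submodule.span_induction
      (p := fun (f : CuspForm (Gamma0 N) k) _ => ∀ n : ℕ, ∃ m : ℤ, qCoeff ⇑f n = (m : ℂ))
      ?_ ?_ ?_ ?_ hf
    · intro x hx
      exact hx
    · intro n
      exact ⟨0, by simpa using (qCoeffLin N k n).map_zero⟩
    · intro x y _ _ hx hy n
      obtain ⟨a, ha⟩ := hx n
      obtain ⟨b, hb⟩ := hy n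
      exact ⟨a + b, by rw [qCoeff_add, ha, hb]; push_cast; ring⟩
    · intro c x _ hx n
      obtain ⟨a, ha⟩ := hx n
      refine ⟨c * a, ?_⟩
      have : c • x = (c : ℂ) • x := by
        rw [Int.cast_smul_eq_zsmul]
      rw [this, qCoeff_smul, ha]
      push_cast
      ring
  · intro hf
    exact Submodule.subset_span hf

theorem mem_qIntegralSet_iff (f : CuspForm (Gamma0 N) 2) :
    f ∈ CuspForm.qIntegralSet N ↔ ∀ n : ℕ, ∃ m : ℤ, qCoeff ⇑f n = (m : ℂ) := by
  unfold CuspForm.qIntegralSet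
  simp only [Set.mem_ofPred_eq]
  refine forall_congr' fun n => ?_
  rw [Subring.mem_bot]
  constructor
  · rintro ⟨m, hm⟩
    exact ⟨m, by rw [← hm]⟩
  · rintro ⟨m, hm⟩
    exact ⟨m, by rw [hm]⟩

end Fermat.Agent.S49

end
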