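import Mathlib

/-!
# S49 helper: a character of a commutative ring acting faithfully on a finite-dimensional
vector space over an algebraically closed field, with kernel inside a given prime.
-/

set_option autoImplicit false

namespace Fermat.Agent.S49

open Submodule in
/-- Abstract form: `B` a commutative finite-dimensional `K`-algebra acting faithfully on a
finite `B`-module `V`. -/
theorem exists_eigenvector_of_faithful
    {K : Type*} [Field K] [IsAlgClosed K]
    {B : Type*} [CommRing B] [Algebra K B] [Module.Finite K B]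
    {V : Type*} [AddCommGroup V] [Module K V] [Module B V] [IsScalarTower K B V]
    [Module.Finite B V]
    (hfaith : ∀ b : B, (∀ v : V, b • v = 0) → b = 0)
    {R : Type*} [CommRing R] (ι : R →+* B) (hι : Function.Injective ι)
    (𝔪 : Ideal R) [h𝔪 : 𝔪.IsPrime] :
    ∃ (v : V) (ψ : R →+* K), v ≠ 0 ∧ (∀ r, ι r • v = ψ r • v) ∧ RingHom.ker ψ ≤ 𝔪 := by
  classical
  have : IsNoetherianRing B := isNoetherian_of_tower K (inferInstance : IsNoetherian K B)
  -- finitely many minimal primes
  have hfin : (minimalPrimes B).Finite := minimalPrimes.finite_of_isNoetherianRing B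
  -- some minimal prime pulls back inside 𝔪
  obtain ⟨𝔫, h𝔫, h𝔫le⟩ : ∃ 𝔫 ∈ minimalPrimes B, Ideal.comap ι 𝔫 ≤ 𝔪 := by
    have key : (hfin.toFinset.inf fun 𝔫 => Ideal.comap ι 𝔫) ≤ 𝔪 := by
      intro r hr
      have hr' : ∀ 𝔫 ∈ minimalPrimes B, ι r ∈ 𝔫 := by
        intro 𝔫 h𝔫
        have := (Finset.inf_le (f := fun 𝔫 => Ideal.comap ι 𝔫)
          (hfin.mem_toFinset.mpr h𝔫)) hr
        exact this
      have hnil : ι r ∈ nilradical B := by
        rw [nilradical, ← Ideal.sInf_minimalPrimes]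
        exact Ideal.mem_sInf.mpr fun {I} hI => hr' I hI
      obtain ⟨k, hk⟩ := mem_nilradical.mp hnil
      have : r ^ k = 0 := hι (by rw [map_pow, hk, map_zero])
      exact h𝔪.mem_of_pow_mem k (this ▸ 𝔪.zero_mem)
    obtain ⟨𝔫, h𝔫, hle⟩ := (Ideal.IsPrime.inf_le' h𝔪).mp key
    exact ⟨𝔫, hfin.mem_toFinset.mp h𝔫, hle⟩
  -- 𝔫 is an associated prime of V
  have hann : Module.annihilator B V = ⊥ := by
    rw [eq_bot_iff]
    intro b hb
    exact hfaith b (Module.mem_annihilator.mp hb)
  have hass : 𝔫 ∈ associatedPrimes B V := by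
    apply Module.associatedPrimes.minimalPrimes_annihilator_subset_associatedPrimes B V
    rw [hann]
    exact h𝔫
  obtain ⟨h𝔫prime, v, hv⟩ := (isAssociatedPrime_iff (I := 𝔫) (M := V)).mp hass
  have := h𝔫prime
  have hmem : ∀ b : B, b ∈ 𝔫 ↔ b • v = 0 := by
    intro b
    rw [hv, Submodule.mem_colon_singleton, Submodule.mem_bot]
  -- B ⧸ 𝔫 = K
  have : Algebra.IsIntegral K (B ⧸ 𝔫) := inferInstance
  have hbij : Function.Bijective (algebraMap K (B ⧸ 𝔫)) :=
    IsAlgClosed.algebraMap_bijective_of_isIntegral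
  let e : K ≃+* (B ⧸ 𝔫) := RingEquiv.ofBijective (algebraMap K (B ⧸ 𝔫)) hbij
  let ψ : R →+* K := (e.symm : (B ⧸ 𝔫) →+* K).comp ((Ideal.Quotient.mk 𝔫).comp ι)
  have hψ : ∀ r, algebraMap K (B ⧸ 𝔫) (ψ r) = Ideal.Quotient.mk 𝔫 (ι r) := by
    intro r
    exact e.apply_symm_apply _
  refine ⟨v, ψ, ?_, ?_, ?_⟩
  · rintro rfl
    apply h𝔫prime.ne_top
    rw [Ideal.eq_top_iff_one, hmem]
    simp
  · intro r
    have h1 : ι r - algebraMap K B (ψ r) ∈ 𝔫 := by
      rw [← Ideal.Quotient.eq, ← hψ r]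
      rfl
    have h2 := (hmem _).mp h1
    rw [sub_smul, sub_eq_zero, algebraMap_smul] at h2
    exact h2
  · intro r hr
    apply h𝔫le
    rw [Ideal.mem_comap, ← Ideal.Quotient.eq_zero_iff_mem, ← hψ r]
    rw [RingHom.mem_ker] at hr
    rw [hr, map_zero]

/-- Concrete form: a commutative ring acting faithfully on a finite-dimensional vector space over
an algebraically closed field has, for each prime `𝔪`, a common eigenvector whose eigencharacter
has kernel contained in `𝔪`. -/
theorem exists_eigenvector_of_injective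
    {K : Type*} [Field K] [IsAlgClosed K]
    {V : Type*} [AddCommGroup V] [Module K V] [FiniteDimensional K V]
    {R : Type*} [CommRing R] (ρ : R →+* Module.End K V) (hρ : Function.Injective ρ)
    (𝔪 : Ideal R) [h𝔪 : 𝔪.IsPrime] :
    ∃ (v : V) (ψ : R →+* K), v ≠ 0 ∧ (∀ r, ρ r v = ψ r • v) ∧ RingHom.ker ψ ≤ 𝔪 := by
  classical
  have hcomm : ∀ a ∈ Set.range ρ, ∀ b ∈ Set.range ρ, a * b = b * a := by
    rintro _ ⟨a, rfl⟩ _ ⟨b, rfl⟩
    rw [← map_mul, ← map_mul, mul_comm]
  have : IsMulCommutative (Algebra.adjoin K (Set.range ρ)) :=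
    Algebra.isMulCommutative_adjoin K hcomm
  let cr : CommRing (Algebra.adjoin K (Set.range ρ)) :=
    { (inferInstance : Ring (Algebra.adjoin K (Set.range ρ))) with
      mul_comm := fun a b => IsMulCommutative.is_comm.comm a b }
  let B := Algebra.adjoin K (Set.range ρ)
  let ι : R →+* B := ρ.codRestrict B fun r => Algebra.subset_adjoin ⟨r, rfl⟩
  have hι : Function.Injective ι := fun a b hab => hρ (congrArg Subtype.val hab)
  have : Module.Finite B V := Module.Finite.of_restrictScalars_finite K B V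
  have hfaith : ∀ b : B, (∀ v : V, b • v = 0) → b = 0 := by
    intro b hb
    apply Subtype.ext
    apply LinearMap.ext
    intro v
    exact hb v
  obtain ⟨v, ψ, hv, hψ, hker⟩ := exists_eigenvector_of_faithful (K := K) (B := B) (V := V)
    hfaith ι hι 𝔪
  exact ⟨v, ψ, hv, fun r => hψ r, hker⟩

end Fermat.Agent.S49
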