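import Mathlib
import Fermat.Prelude.Def_FormalHecke_Eigensystem

/-!
# A formal Hecke eigensystem is recursive (multiplicative + prime-power recursion)

Pure induction; requested by helper49 for S49.
-/

set_option autoImplicit false

namespace Fermat.Agent.S49

variable {R : Type*} [CommRing R]

/-- The Hecke relation at a prime `ℓ`, solved for `a (ℓ * n)`. -/
theorem eigensystem_mul_prime {e a : ℕ → R} (h : FormalHecke.IsEigensystem e a)
    {ℓ : ℕ} (hℓ : ℓ.Prime) (n : ℕ) :
    a (ℓ * n) = a ℓ * a n - e ℓ * (if ℓ ∣ n then a (n / ℓ) else 0) :=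
  eq_sub_of_add_eq (h.2 ℓ hℓ n)

/-- Multiplicativity on coprime arguments of a formal Hecke eigensystem. -/
theorem eigensystem_mul_of_coprime {e a : ℕ → R} (h : FormalHecke.IsEigensystem e a) :
    ∀ m n : ℕ, m.Coprime n → a (m * n) = a m * a n := by
  intro m
  induction m using Nat.strong_induction_on with
  | _ m ih =>
    intro n hmn
    rcases Nat.lt_or_ge m 2 with hm | hm
    · -- m = 0 or m = 1
      interval_cases m
      · have hn : n = 1 := by simpa using hmn
        subst hn
        simp [h.1]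
      · simp [h.1]
    · -- m ≥ 2: peel off a prime factor
      obtain ⟨ℓ, hℓ, hℓm⟩ := Nat.exists_prime_and_dvd (n := m) (by omega)
      obtain ⟨m', rfl⟩ := hℓm
      have hm'pos : 0 < m' := by
        rcases Nat.eq_zero_or_pos m' with h0 | h0
        · subst h0; simp at hm
        · exact h0
      have hm'lt : m' < ℓ * m' := by
        have := hℓ.two_le
        nlinarith
      have hcop' : m'.Coprime n := Nat.Coprime.coprime_dvd_left (Dvd.intro_left ℓ rfl) hmn
      have hℓn : ¬ ℓ ∣ n := by
        intro hdvd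
        have hℓcop : ℓ.Coprime n := Nat.Coprime.coprime_dvd_left (Dvd.intro m' rfl) hmn
        have := Nat.Coprime.eq_one_of_dvd hℓcop hdvd
        exact hℓ.one_lt.ne' this
      have h1 : a (ℓ * m' * n) =
          a ℓ * a (m' * n) - e ℓ * (if ℓ ∣ m' * n then a (m' * n / ℓ) else 0) := by
        rw [mul_assoc]; exact eigensystem_mul_prime h hℓ (m' * n)
      have h2 : a (ℓ * m') = a ℓ * a m' - e ℓ * (if ℓ ∣ m' then a (m' / ℓ) else 0) :=
        eigensystem_mul_prime h hℓ m'
      have h3 : a (m' * n) = a m' * a n := ih m' hm'lt n hcop'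
      by_cases hℓm' : ℓ ∣ m'
      · have hdvd : ℓ ∣ m' * n := Dvd.dvd.mul_right hℓm' n
        obtain ⟨k, rfl⟩ := hℓm'
        have hkpos : 0 < k := by
          rcases Nat.eq_zero_or_pos k with h0 | h0
          · subst h0; simp at hm'pos
          · exact h0
        have hklt : k < ℓ * (ℓ * k) := by
          have := hℓ.two_le
          nlinarith
        have hkcop : k.Coprime n := Nat.Coprime.coprime_dvd_left (Dvd.intro_left ℓ rfl) hcop'
        have h4 : a (k * n) = a k * a n := ih k hklt n hkcop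
        have e1 : ℓ * k * n / ℓ = k * n := by
          rw [mul_assoc]; exact Nat.mul_div_cancel_left _ hℓ.pos
        have e2 : ℓ * k / ℓ = k := Nat.mul_div_cancel_left _ hℓ.pos
        rw [h1, h2, h3, if_pos hdvd, if_pos (Dvd.intro k rfl), e1, e2, h4]
        ring
      · have hndvd : ¬ ℓ ∣ m' * n := by
          intro hd
          rcases (Nat.Prime.dvd_mul hℓ).mp hd with hd | hd
          · exact hℓm' hd
          · exact hℓn hd
        rw [h1, h2, h3, if_neg hndvd, if_neg hℓm']
        ring

/-- The prime-power recursion of a formal Hecke eigensystem. -/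
theorem eigensystem_prime_pow {e a : ℕ → R} (h : FormalHecke.IsEigensystem e a)
    (ℓ r : ℕ) (hℓ : ℓ.Prime) :
    a (ℓ ^ (r + 2)) = a ℓ * a (ℓ ^ (r + 1)) - e ℓ * a (ℓ ^ r) := by
  have h1 := eigensystem_mul_prime h hℓ (ℓ ^ (r + 1))
  have hdvd : ℓ ∣ ℓ ^ (r + 1) := dvd_pow_self ℓ (Nat.succ_ne_zero r)
  have hdiv : ℓ ^ (r + 1) / ℓ = ℓ ^ r := by
    rw [pow_succ]; exact Nat.mul_div_cancel _ hℓ.pos
  rw [if_pos hdvd, hdiv] at h1
  have hpow : ℓ ^ (r + 2) = ℓ * ℓ ^ (r + 1) := by ring
  rw [hpow]; exact h1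

/-- **A formal Hecke eigensystem is recursive.** -/
theorem isRecursive_of_isEigensystem {e a : ℕ → R} (h : FormalHecke.IsEigensystem e a) :
    FormalHecke.IsRecursive e a :=
  ⟨h.1, eigensystem_mul_of_coprime h, fun ℓ r hℓ => eigensystem_prime_pow h ℓ r hℓ⟩

end Fermat.Agent.S49
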