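import Fermat.Agent.S49.QExp
import Fermat.Agent.S49.Recursive

/-!
# S49 helper: a common Hecke eigenvector can be normalised to a normalised eigenform.
-/

set_option autoImplicit false

noncomputable section

namespace Fermat.Agent.S49

open ModularFormClass CongruenceSubgroup UpperHalfPlane

variable {N : ℕ} [NeZero N]

/-- the "character" of weight 2, level `N`, trivial nebentypus -/
def levelChar (N : ℕ) (ℓ : ℕ) : ℂ := if ℓ ∣ N then 0 else (ℓ : ℂ)

/-- eigenvalue function attached to a character of the Hecke algebra -/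
def eigenvalueOf (ψ : CuspForm.heckeAlgebra N 2 ∅ →+* ℂ) (ℓ : ℕ) : ℂ :=
  if hℓ : ℓ.Prime then
    (if hN : ℓ ∣ N then ψ (CuspForm.heckeAlgebra.U hℓ hN (Set.notMem_empty ℓ))
      else ψ (CuspForm.heckeAlgebra.T hℓ hN (Set.notMem_empty ℓ)))
  else 0

theorem eigenvalueOf_of_not_dvd (ψ : CuspForm.heckeAlgebra N 2 ∅ →+* ℂ) {ℓ : ℕ} (hℓ : ℓ.Prime)
    (hN : ¬ ℓ ∣ N) :
    eigenvalueOf ψ ℓ = ψ (CuspForm.heckeAlgebra.T hℓ hN (Set.notMem_empty ℓ)) := by
  simp [eigenvalueOf, hℓ, hN]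

/-- The Hecke relation on q-coefficients of a common eigenvector. -/
theorem qCoeff_relation_of_eigenvector (v : CuspForm (Gamma0 N) 2)
    (ψ : CuspForm.heckeAlgebra N 2 ∅ →+* ℂ)
    (hψ : ∀ t : CuspForm.heckeAlgebra N 2 ∅,
      (t : Module.End ℂ (CuspForm (Gamma0 N) 2)) v = ψ t • v)
    {ℓ : ℕ} (hℓ : ℓ.Prime) (n : ℕ) :
    qCoeff ⇑v (ℓ * n) + levelChar N ℓ * (if ℓ ∣ n then qCoeff ⇑v (n / ℓ) else 0) =
      eigenvalueOf ψ ℓ * qCoeff ⇑v n := by
  by_cases hN : ℓ ∣ N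
  · have h1 := hψ (CuspForm.heckeAlgebra.U hℓ hN (Set.notMem_empty ℓ))
    rw [CuspForm.heckeAlgebra.coe_U] at h1
    have h2 := congrArg (fun f : CuspForm (Gamma0 N) 2 => qCoeff ⇑f n) h1
    simp only [qCoeff_heckeULin hℓ hN, qCoeff_smul] at h2
    simp only [levelChar, eigenvalueOf, hℓ, hN, if_true, dif_pos, zero_mul, add_zero]
    rw [mul_comm ℓ n]
    exact h2
  · have h1 := hψ (CuspForm.heckeAlgebra.T hℓ hN (Set.notMem_empty ℓ))
    rw [CuspForm.heckeAlgebra.coe_T] at h1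
    have h2 := congrArg (fun f : CuspForm (Gamma0 N) 2 => qCoeff ⇑f n) h1
    simp only [qCoeff_heckeTLin hℓ hN, qCoeff_smul] at h2
    simp only [levelChar, eigenvalueOf, hℓ, hN, if_false, dif_pos, dif_neg, not_false_iff]
    rw [mul_comm ℓ n, ← h2]
    congr 1
    split_ifs
    · norm_num
    · simp

theorem qCoeff_one_ne_zero_of_eigenvector (v : CuspForm (Gamma0 N) 2) (hv : v ≠ 0)
    (ψ : CuspForm.heckeAlgebra N 2 ∅ →+* ℂ)
    (hψ : ∀ t : CuspForm.heckeAlgebra N 2 ∅,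
      (t : Module.End ℂ (CuspForm (Gamma0 N) 2)) v = ψ t • v) :
    qCoeff ⇑v 1 ≠ 0 := by
  intro h1
  apply hv
  apply eq_zero_of_qCoeff_eq_zero
  intro n
  induction n using Nat.strong_induction_on with
  | _ n ih =>
    rcases Nat.lt_or_ge n 2 with hn | hn
    · interval_cases n
      · exact qCoeff_zero_cusp v
      · exact h1
    · obtain ⟨ℓ, hℓ, hℓn⟩ := Nat.exists_prime_and_dvd (n := n) (by omega)
      obtain ⟨m, rfl⟩ := hℓn
      have hmpos : 0 < m := by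
        rcases Nat.eq_zero_or_pos m with h0 | h0
        · subst h0; simp at hn
        · exact h0
      have hmlt : m < ℓ * m := by
        have := hℓ.two_le
        nlinarith
      have hrel := qCoeff_relation_of_eigenvector v ψ hψ hℓ m
      rw [ih m hmlt, mul_zero] at hrel
      have hdiv : (if ℓ ∣ m then qCoeff ⇑v (m / ℓ) else 0) = 0 := by
        split_ifs with hd
        · apply ih
          exact lt_of_le_of_lt (Nat.div_le_self m ℓ) hmlt
        · rfl
      rw [hdiv, mul_zero, add_zero] at hrel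
      exact hrel

theorem exists_normalized_eigenform (v : CuspForm (Gamma0 N) 2) (hv : v ≠ 0)
    (ψ : CuspForm.heckeAlgebra N 2 ∅ →+* ℂ)
    (hψ : ∀ t : CuspForm.heckeAlgebra N 2 ∅,
      (t : Module.End ℂ (CuspForm (Gamma0 N) 2)) v = ψ t • v) :
    ∃ f : CuspForm (Gamma0 N) 2, f.IsNormalizedEigenform ∧
      ∀ (ℓ : ℕ) (hℓ : ℓ.Prime) (hℓN : ¬ ℓ ∣ N),
        qCoeff ⇑f ℓ = ψ (CuspForm.heckeAlgebra.T hℓ hℓN (Set.notMem_empty ℓ)) := by
  have hb1 := qCoeff_one_ne_zero_of_eigenvector v hv ψ hψ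
  set c : ℂ := (qCoeff ⇑v 1)⁻¹ with hc
  set f : CuspForm (Gamma0 N) 2 := c • v with hf
  have hfψ : ∀ t : CuspForm.heckeAlgebra N 2 ∅,
      (t : Module.End ℂ (CuspForm (Gamma0 N) 2)) f = ψ t • f := by
    intro t
    rw [hf, map_smul, hψ t, smul_comm]
  have hf1 : qCoeff ⇑f 1 = 1 := by
    rw [hf, qCoeff_smul, hc, inv_mul_cancel₀ hb1]
  have hrel := fun {ℓ : ℕ} (hℓ : ℓ.Prime) (n : ℕ) =>
    qCoeff_relation_of_eigenvector f ψ hfψ hℓ n
  have hlam : ∀ {ℓ : ℕ}, ℓ.Prime → eigenvalueOf ψ ℓ = qCoeff ⇑f ℓ := by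
    intro ℓ hℓ
    have := hrel hℓ 1
    rw [mul_one, hf1, mul_one, if_neg (by simpa using hℓ.one_lt.ne'), mul_zero, add_zero] at this
    exact this.symm
  have heig : FormalHecke.IsEigensystem (levelChar N) (fun n => qCoeff ⇑f n) := by
    refine ⟨hf1, fun ℓ hℓ n => ?_⟩
    have := hrel hℓ n
    rw [hlam hℓ] at this
    exact this
  obtain ⟨-, hmul, hpow⟩ := isRecursive_of_isEigensystem heig
  refine ⟨f, ⟨hf1, hmul, ?_, ?_⟩, ?_⟩
  · intro p r hp hpN
    have := hpow p r hp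
    simp only [levelChar, if_neg hpN] at this
    exact this
  · intro p r hp hpN
    have := hpow p r hp
    simp only [levelChar, if_pos hpN, zero_mul, sub_zero] at this
    exact this
  · intro ℓ hℓ hℓN
    rw [← hlam hℓ, eigenvalueOf_of_not_dvd ψ hℓ hℓN]

end Fermat.Agent.S49

end
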