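import Mathlib

set_option autoImplicit false

namespace Fermat.Agent.S49

/-- Lying-over step of the Deligne–Serre lifting lemma: a ring homomorphism `ψ : T → ℂ` from a ring
integral over `ℤ` lands in `ℤ̄ = integralClosure ℤ ℂ`, and every maximal ideal of `T` containing
`ker ψ` is the contraction of a maximal ideal of `ℤ̄`. -/
theorem exists_maximal_over {T : Type*} [CommRing T] [Algebra.IsIntegral ℤ T] (ψ : T →+* ℂ)
    (𝔪₁ : Ideal T) [𝔪₁.IsMaximal] (hker : RingHom.ker ψ ≤ 𝔪₁) :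
    ∃ (ψ' : T →+* integralClosure ℤ ℂ) (𝔪' : Ideal (integralClosure ℤ ℂ)),
      (∀ t, ((ψ' t : integralClosure ℤ ℂ) : ℂ) = ψ t) ∧ 𝔪'.IsMaximal ∧ 𝔪'.comap ψ' = 𝔪₁ := by
  classical
  -- `ψ` lands in the integral closure
  have hint : ∀ t : T, ψ t ∈ (integralClosure ℤ ℂ).toSubring := fun t =>
    map_isIntegral_int ψ (Algebra.IsIntegral.isIntegral t)
  let ψ' : T →+* integralClosure ℤ ℂ := ψ.codRestrict (integralClosure ℤ ℂ).toSubring hint
  have hψ' : ∀ t, ((ψ' t : integralClosure ℤ ℂ) : ℂ) = ψ t := fun t => rfl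
  letI : Algebra T (integralClosure ℤ ℂ) := ψ'.toAlgebra
  haveI : IsScalarTower ℤ T (integralClosure ℤ ℂ) :=
    IsScalarTower.of_algebraMap_eq fun n => by
      simp [RingHom.algebraMap_toAlgebra]
  haveI : Algebra.IsIntegral T (integralClosure ℤ ℂ) :=
    Algebra.IsIntegral.tower_top (R := ℤ)
  have hker' : RingHom.ker (algebraMap T (integralClosure ℤ ℂ)) ≤ 𝔪₁ := by
    intro t ht
    apply hker
    rw [RingHom.mem_ker] at ht ⊢
    have : ((ψ' t : integralClosure ℤ ℂ) : ℂ) = 0 := by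
      have h0 : ψ' t = 0 := ht
      rw [h0]; rfl
    rw [← hψ' t, this]
  obtain ⟨Q, hQmax, hQ⟩ := Ideal.exists_ideal_over_maximal_of_isIntegral
    (S := integralClosure ℤ ℂ) 𝔪₁ hker'
  exact ⟨ψ', Q, hψ', hQmax, hQ⟩

end Fermat.Agent.S49
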