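import Fermat.Agent.S49.QExp

/-!
# S49 helper: the Hecke algebra is integral over `ℤ` when the integral forms span.
-/

set_option autoImplicit false

noncomputable section

namespace Fermat.Agent.S49

open ModularFormClass CongruenceSubgroup UpperHalfPlane

variable {N : ℕ} [NeZero N]

theorem qIntegralSet_subset_intLattice (N : ℕ) :
    CuspForm.qIntegralSet N ⊆ (CuspForm.intLattice N 2 : Set (CuspForm (Gamma0 N) 2)) := by
  intro f hf
  exact (mem_intLattice_iff f).mpr ((mem_qIntegralSet_iff f).mp hf)

/-- Restriction of the Hecke algebra to the integral lattice. -/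
def heckeRestrict (N : ℕ) [NeZero N] :
    CuspForm.heckeAlgebra N 2 ∅ →+* Module.End ℤ (CuspForm.intLattice N 2) where
  toFun t := LinearMap.restrict
    ((t : Module.End ℂ (CuspForm (Gamma0 N) 2)).restrictScalars ℤ)
    (fun _ hf => CuspForm.mem_intLattice_of_mem_heckeAlgebra (by norm_num) t.2 hf)
  map_one' := by
    apply LinearMap.ext
    intro x
    apply Subtype.ext
    rfl
  map_mul' s t := by
    apply LinearMap.ext
    intro x
    apply Subtype.ext
    rfl
  map_zero' := by
    apply LinearMap.ext
    intro x
    apply Subtype.ext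
    rfl
  map_add' s t := by
    apply LinearMap.ext
    intro x
    apply Subtype.ext
    rfl

theorem heckeRestrict_apply (t : CuspForm.heckeAlgebra N 2 ∅) (x : CuspForm.intLattice N 2) :
    ((heckeRestrict N t x : CuspForm.intLattice N 2) : CuspForm (Gamma0 N) 2) =
      (t : Module.End ℂ (CuspForm (Gamma0 N) 2)) x := rfl

theorem heckeRestrict_injective (h : CuspForm.HasIntegralBasis N) :
    Function.Injective (heckeRestrict N) := by
  refine (injective_iff_map_eq_zero _).mpr fun t ht => ?_
  apply Subtype.ext
  apply LinearMap.ext_on h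
  intro f hf
  have hfL := qIntegralSet_subset_intLattice N hf
  have := congrArg (fun φ : Module.End ℤ (CuspForm.intLattice N 2) =>
    ((φ ⟨f, hfL⟩ : CuspForm.intLattice N 2) : CuspForm (Gamma0 N) 2)) ht
  simpa [heckeRestrict_apply] using this

theorem isIntegral_heckeAlgebra (h : CuspForm.HasIntegralBasis N) :
    Algebra.IsIntegral ℤ (CuspForm.heckeAlgebra N 2 ∅) := by
  haveI : Module.Finite ℤ (CuspForm.intLattice N 2) :=
    Module.Finite.iff_fg.mpr (CuspForm.intLattice_fg N 2)
  refine ⟨fun t => ?_⟩
  have h1 : IsIntegral ℤ ((heckeRestrict N).toIntAlgHom t) :=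
    Algebra.IsIntegral.isIntegral _
  exact (isIntegral_algHom_iff (heckeRestrict N).toIntAlgHom
    (heckeRestrict_injective h)).mp h1

end Fermat.Agent.S49

end
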