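import Fermat.Agent.S49.QExp
import Fermat.Prelude.Def_FormalHecke_Eigensystem

/-!
# S49 helper: the maximal ideal of the Hecke algebra attached to the mod-3 eigensystem.
-/

set_option autoImplicit false

noncomputable section

namespace Fermat.Agent.S49

open ModularFormClass CongruenceSubgroup UpperHalfPlane EisensteinWeightOne

variable {N : ℕ} [NeZero N]

theorem e1Chi3In_int_eq :
    e1Chi3In ℤ = 1 + PowerSeries.C (3 : ℤ) *
      PowerSeries.mk (fun n => if n = 0 then 0 else 2 * sigmaChi n) := by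
  ext m
  simp only [e1Chi3In, e1Chi3, PowerSeries.coeff_map, PowerSeries.coeff_mk, map_add,
    PowerSeries.coeff_one, PowerSeries.coeff_C_mul, Int.coe_castRingHom, Int.cast_id]
  split_ifs <;> ring

theorem three_dvd_coeff_bridgeProduct_sub (a : ℕ → ℤ) (n : ℕ) :
    (3 : ℤ) ∣ (bridgeProduct a).coeff n - a n := by
  unfold bridgeProduct
  rw [e1Chi3In_int_eq, mul_add, mul_one, map_add, PowerSeries.coeff_mk, add_sub_cancel_left,
    ← mul_assoc, mul_comm _ (PowerSeries.C (3 : ℤ)), mul_assoc, PowerSeries.coeff_C_mul]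
  exact dvd_mul_right _ _

theorem chiNegThree_zmod (ℓ : ℕ) : ((chiNegThree ℓ : ℤ) : ZMod 3) = (ℓ : ZMod 3) := by
  have h3 : ((ℓ % 3 : ℕ) : ZMod 3) = (ℓ : ZMod 3) := ZMod.natCast_mod ℓ 3
  have hlt : ℓ % 3 < 3 := Nat.mod_lt _ (by norm_num)
  rw [← h3]
  unfold chiNegThree
  interval_cases h : ℓ % 3 <;> simp <;> decide

/-- The ideal of Hecke operators sending `f₀` into `3 L`. -/
def modThreeIdeal (f₀ : CuspForm (Gamma0 N) 2) : Ideal (CuspForm.heckeAlgebra N 2 ∅) where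
  carrier := {t | ∃ g ∈ CuspForm.intLattice N 2,
    (t : Module.End ℂ (CuspForm (Gamma0 N) 2)) f₀ = (3 : ℂ) • g}
  add_mem' := by
    rintro s t ⟨g, hg, hgs⟩ ⟨g', hg', hgt⟩
    refine ⟨g + g', add_mem hg hg', ?_⟩
    rw [Subalgebra.coe_add, LinearMap.add_apply, hgs, hgt, smul_add]
  zero_mem' := ⟨0, zero_mem _, by simp⟩
  smul_mem' := by
    rintro s t ⟨g, hg, hgt⟩
    refine ⟨(s : Module.End ℂ (CuspForm (Gamma0 N) 2)) g,
      CuspForm.mem_intLattice_of_mem_heckeAlgebra (by norm_num) s.2 hg, ?_⟩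
    rw [smul_eq_mul, Subalgebra.coe_mul, Module.End.mul_apply, hgt, map_smul]

theorem mem_modThreeIdeal (f₀ : CuspForm (Gamma0 N) 2) (t : CuspForm.heckeAlgebra N 2 ∅) :
    t ∈ modThreeIdeal f₀ ↔ ∃ g ∈ CuspForm.intLattice N 2,
      (t : Module.End ℂ (CuspForm (Gamma0 N) 2)) f₀ = (3 : ℂ) • g := Iff.rfl

theorem exists_maximal_hecke_mod_three_aux {a : ℕ → ℤ}
    (heig : FormalHecke.IsEigensystem
      (fun ℓ => if ℓ ∣ N then 0 else ((chiNegThree ℓ : ℤ) : ℤ)) a)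
    (hreal : CuspForm.IsLatticeRealized N a) :
    ∃ 𝔪 : Ideal (CuspForm.heckeAlgebra N 2 ∅), 𝔪.IsMaximal ∧
      ((3 : ℕ) : CuspForm.heckeAlgebra N 2 ∅) ∈ 𝔪 ∧
      ∀ (ℓ : ℕ) (hℓ : ℓ.Prime) (hℓN : ¬ ℓ ∣ N),
        CuspForm.heckeAlgebra.T hℓ hℓN (Set.notMem_empty ℓ) -
          ((a ℓ : ℤ) : CuspForm.heckeAlgebra N 2 ∅) ∈ 𝔪 := by
  obtain ⟨f₀, hf₀, af, haf, hcong⟩ := hreal
  have hf₀L : f₀ ∈ CuspForm.intLattice N 2 :=
    (mem_intLattice_iff f₀).mpr ((mem_qIntegralSet_iff f₀).mp hf₀)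
  -- af ≡ a mod 3
  have hmod : ∀ n, ((af n : ℤ) : ZMod 3) = ((a n : ℤ) : ZMod 3) := by
    intro n
    have h1 : (3 : ℤ) ∣ af n - a n := by
      have := dvd_add (hcong n) (three_dvd_coeff_bridgeProduct_sub a n)
      simpa using this
    have h2 := (ZMod.intCast_zmod_eq_zero_iff_dvd (af n - a n) 3).mpr (by exact_mod_cast h1)
    rw [Int.cast_sub, sub_eq_zero] at h2
    exact h2
  -- properness
  have hproper : modThreeIdeal f₀ ≠ ⊤ := by
    intro htop
    have h1 : (1 : CuspForm.heckeAlgebra N 2 ∅) ∈ modThreeIdeal f₀ := htop ▸ Submodule.mem_top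
    obtain ⟨g, hg, hgf⟩ := h1
    rw [Subalgebra.coe_one, Module.End.one_apply] at hgf
    obtain ⟨m, hm⟩ := (mem_intLattice_iff g).mp hg 1
    have h2 : qCoeff ⇑f₀ 1 = 3 * (m : ℂ) := by
      rw [hgf, qCoeff_smul, hm]
    rw [← haf 1] at h2
    have h3 : af 1 = 3 * m := by exact_mod_cast h2
    have h4 := hmod 1
    rw [heig.1, h3] at h4
    have h30 : ((3 : ℤ) : ZMod 3) = 0 := by decide
    rw [Int.cast_mul, h30, zero_mul, Int.cast_one] at h4
    exact zero_ne_one h4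
  obtain ⟨𝔪, h𝔪max, hle⟩ := Ideal.exists_le_maximal _ hproper
  refine ⟨𝔪, h𝔪max, hle ?_, fun ℓ hℓ hℓN => hle ?_⟩
  · refine ⟨f₀, hf₀L, ?_⟩
    have h3 : (((3 : ℕ) : CuspForm.heckeAlgebra N 2 ∅) :
        Module.End ℂ (CuspForm (Gamma0 N) 2)) = ((3 : ℕ) : Module.End ℂ (CuspForm (Gamma0 N) 2)) :=
      rfl
    rw [h3, Module.End.natCast_apply, ← Nat.cast_smul_eq_nsmul ℂ]
    norm_num
  · -- T_ℓ - a ℓ
    set h : CuspForm (Gamma0 N) 2 :=
      CuspForm.heckeTLin 2 hℓ hℓN f₀ - (a ℓ : ℂ) • f₀ with hh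
    have hcoef : ∀ n, ∃ m : ℤ, qCoeff ⇑h n = 3 * (m : ℂ) := by
      intro n
      have hq : qCoeff ⇑h n = ((af (n * ℓ) + (if ℓ ∣ n then (ℓ : ℤ) * af (n / ℓ) else 0)
          - a ℓ * af n : ℤ) : ℂ) := by
        have := (qCoeffLin N 2 n).map_sub (CuspForm.heckeTLin 2 hℓ hℓN f₀) ((a ℓ : ℂ) • f₀)
        simp only [qCoeffLin_apply] at this
        rw [hh, this, qCoeff_heckeTLin, qCoeff_smul]
        simp only [← haf]
        split_ifs
        · push_cast
          norm_num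
        · push_cast
          ring
      have hz : ((af (n * ℓ) + (if ℓ ∣ n then (ℓ : ℤ) * af (n / ℓ) else 0)
          - a ℓ * af n : ℤ) : ZMod 3) = 0 := by
        have he := heig.2 ℓ hℓ n
        simp only [if_neg hℓN] at he
        have he' : ((a (ℓ * n) + chiNegThree ℓ * (if ℓ ∣ n then a (n / ℓ) else 0) : ℤ) : ZMod 3)
            = ((a ℓ * a n : ℤ) : ZMod 3) := congrArg (fun x : ℤ => (x : ZMod 3)) he
        rw [← sub_eq_zero] at he'
        rw [← he']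
        push_cast
        rw [hmod (n * ℓ), hmod n, chiNegThree_zmod, mul_comm n ℓ]
        split_ifs
        · rw [hmod (n / ℓ)]
        · push_cast
          ring
      obtain ⟨m, hm⟩ := (ZMod.intCast_zmod_eq_zero_iff_dvd _ 3).mp hz
      refine ⟨m, ?_⟩
      rw [hq, hm]
      push_cast
      ring
    choose m hm using hcoef
    refine ⟨(3 : ℂ)⁻¹ • h, ?_, ?_⟩
    · rw [mem_intLattice_iff]
      intro n
      refine ⟨m n, ?_⟩
      rw [qCoeff_smul, hm n]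
      field_simp
    · have hz : ((((a ℓ : ℤ) : CuspForm.heckeAlgebra N 2 ∅)) :
          Module.End ℂ (CuspForm (Gamma0 N) 2)) =
            ((a ℓ : ℤ) : Module.End ℂ (CuspForm (Gamma0 N) 2)) := rfl
      rw [smul_smul, mul_inv_cancel₀ (by norm_num : (3 : ℂ) ≠ 0), one_smul, hh,
        Subalgebra.coe_sub, CuspForm.heckeAlgebra.coe_T, hz, LinearMap.sub_apply]
      congr 1
      rw [Module.End.intCast_apply, Int.cast_smul_eq_zsmul]

end Fermat.Agent.S49

end
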